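import Mathlib
import Fermat.Agent.S18.B12.Spec3

/-!
# S18 / b2.5 / A9: regularity along a Dedekind special fibre (helper845)

`theorem regularAlongOfDedekind : RegularAlongOfDedekindStatement`
-/

set_option autoImplicit false

namespace Fermat.Agent.S18.B12.H845

open Ideal

/-- In a Dedekind domain, a nonzero maximal ideal `M` is "locally principal": there are `t ∈ M`
and `s ∉ M` with `s • M ⊆ (t)`. -/
lemma exists_local_generator {D : Type*} [CommRing D] [IsDedekindDomain D] (M : Ideal D)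
    (hM : M.IsMaximal) :
    ∃ t ∈ M, ∃ s : D, s ∉ M ∧ ∀ a ∈ M, s * a ∈ Ideal.span {t} := by
  by_cases h0 : M = ⊥
  · refine ⟨0, M.zero_mem, 1, ?_, ?_⟩
    · intro h1
      exact hM.ne_top ((Ideal.eq_top_iff_one M).mpr h1)
    · intro a ha
      rw [h0, Ideal.mem_bot] at ha
      rw [ha, mul_zero]
      exact Ideal.zero_mem _
  · -- `M ≠ M ^ 2`
    have hne : M ^ 2 ≠ M := by
      intro h
      have hMtop : M ≠ ⊤ := hM.ne_top
      have h1 : M * M = M * 1 := by rw [mul_one, ← sq]; exact h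
      have h2 : M = 1 := mul_left_cancel₀ h0 h1
      exact hMtop (by rw [h2, Ideal.one_eq_top])
    have hlt : M ^ 2 < M := lt_of_le_of_ne (Ideal.pow_le_self two_ne_zero) hne
    obtain ⟨t, htM, htM2⟩ := SetLike.exists_of_lt hlt
    have hdvd : M ∣ Ideal.span {t} := by
      rw [Ideal.dvd_iff_le, Ideal.span_singleton_le_iff_mem]
      exact htM
    obtain ⟨J, hJ⟩ := hdvd
    have hJM : ¬ J ≤ M := by
      intro hle
      apply htM2
      have : Ideal.span {t} ≤ M ^ 2 := by
        rw [hJ, sq]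
        exact Ideal.mul_mono_right hle
      exact this (Ideal.mem_span_singleton_self t)
    obtain ⟨s, hsJ, hsM⟩ := SetLike.not_le_iff_exists.mp hJM
    refine ⟨t, htM, s, hsM, fun a ha => ?_⟩
    rw [hJ, mul_comm s a]
    exact Ideal.mul_mem_mul ha hsJ

theorem regularAlongOfDedekind.{u} : RegularAlongOfDedekindStatement.{u} := by
  intro B _ ϖ hD 𝔪 h𝔪 hϖ
  let q := Ideal.Quotient.mk (Ideal.span {ϖ})
  have hle : Ideal.span {ϖ} ≤ 𝔪 := by
    rw [Ideal.span_singleton_le_iff_mem]; exact hϖ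
  have hsurj : Function.Surjective q := Ideal.Quotient.mk_surjective
  -- the image of `𝔪`
  let M : Ideal (B ⧸ Ideal.span {ϖ}) := 𝔪.map q
  have hcomap : M.comap q = 𝔪 := by
    rw [Ideal.comap_map_of_surjective q hsurj]
    rw [← RingHom.ker_eq_comap_bot, Ideal.mk_ker]
    exact sup_eq_left.mpr hle
  have hMmax : M.IsMaximal := by
    have : (𝔪.map q).IsMaximal ∨ 𝔪.map q = ⊤ := Ideal.map_eq_top_or_isMaximal_of_surjective q hsurj h𝔪 |>.symm
    rcases this with h | h
    · exact h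
    · exfalso
      have h1 : M.comap q = ⊤ := by rw [show M = ⊤ from h, Ideal.comap_top]
      rw [hcomap] at h1
      exact h𝔪.ne_top h1
  obtain ⟨tb, htb, sb, hsb, hall⟩ := exists_local_generator M hMmax
  obtain ⟨t, rfl⟩ := hsurj tb
  obtain ⟨s, rfl⟩ := hsurj sb
  have htm : t ∈ 𝔪 := by
    rw [← hcomap]; exact htb
  have hsm : s ∉ 𝔪 := by
    rw [← hcomap]; exact hsb
  refine ⟨t, htm, fun a ha => ⟨s, hsm, ?_⟩⟩
  have haM : q a ∈ M := Ideal.mem_map_of_mem q ha
  have h1 := hall (q a) haM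
  rw [← map_mul, Ideal.mem_span_singleton] at h1
  obtain ⟨cb, hcb⟩ := h1
  obtain ⟨c, rfl⟩ := hsurj cb
  rw [← map_mul, ← sub_eq_zero, ← map_sub] at hcb
  have h2 : s * a - t * c ∈ Ideal.span {ϖ} := Ideal.Quotient.eq_zero_iff_mem.mp hcb
  have h3 : s * a = (s * a - t * c) + t * c := by ring
  rw [h3]
  refine Ideal.add_mem _ ?_ ?_
  · exact Ideal.span_mono (by simp) h2
  · exact Ideal.mul_mem_right _ _ (Ideal.subset_span (by simp))

end Fermat.Agent.S18.B12.H845
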